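import Fermat.Agent.LambdaEisenstein.Cusp

/-!
# The congruence module

The kernel of the action on the cuspidal families is generated by the `T₀` dual to the constant. So
the cuspidal algebra modulo the image of the Eisenstein ideal is `Λ` modulo the zeta element.
-/

set_option autoImplicit false
set_option linter.unusedSectionVars false

noncomputable section

open PowerSeries Filter Topology

namespace FA.LambdaEisenstein

open FA.PadicForms FA.OrdinaryProj FA.LambdaForms FA.LambdaHecke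

variable {p : ℕ} [Fact p.Prime] {hp2 : p ≠ 2} {c : ZMod (p - 1)}
  {h5 : 5 ≤ p} {hc0 : c ≠ 0} {hev : Even c}

local notation "Λ" => PowerSeries ℤ_[p]

/-- `T₀` kills the cuspidal families. -/
theorem tOf_zero_kills (h5 : 5 ≤ p) (hc0 : c ≠ 0) (hev : Even c) (F : ↥(lamOrd hp2 c))
    (hF : F ∈ cuspMod hp2 c) :
    (tOf h5 hc0 0 : Module.End Λ ↥(lamOrd hp2 c)) F = 0 := by
  refine Subtype.ext (PowerSeries.ext fun n => ?_)
  rw [← coefL_apply, ← pairing_tOf (h5 := h5) (hc0 := hc0) n, ← pairing_mul, mul_comm, pairing_mul,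
    pairing_tOf, constant_apply h5 hc0 hev, show coefL hp2 c 0 F = 0 from LinearMap.mem_ker.1 hF,
    mul_zero]
  simp

/-- **The kernel of the action on the cuspidal families.** -/
theorem cuspMap_eq_zero (h : ↥(heckeAlg hp2 c)) :
    cuspMap hp2 h5 hc0 hev h = 0 ↔
      ∃ a, h = algebraMap Λ ↥(heckeAlg hp2 c) a * tOf h5 hc0 0 := by
  constructor
  · intro h0
    obtain ⟨e, he, π, hπ, -⟩ := exists_split (hp2 := hp2) h5 hev
    refine ⟨pairing hp2 c h e, pairing_injective h5 hc0 (LinearMap.ext fun F => ?_)⟩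
    rw [← Algebra.smul_def, map_smul, LinearMap.smul_apply, pairing_tOf, smul_eq_mul]
    have h1 : (h : Module.End Λ ↥(lamOrd hp2 c)) ((π F : ↥(cuspMod hp2 c)) : ↥(lamOrd hp2 c)) = 0 :=
      congrArg (Subtype.val : ↥(cuspMod hp2 c) → ↥(lamOrd hp2 c))
        (LinearMap.congr_fun (congrArg Subtype.val h0) (π F))
    rw [hπ, map_sub, map_smul, sub_eq_zero] at h1
    rw [pairing_apply, h1, ← coefL_apply, map_smul, smul_eq_mul, mul_comm, coefL_apply]
    rfl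
  · rintro ⟨a, rfl⟩
    refine Subtype.ext (LinearMap.ext fun F => Subtype.ext ?_)
    show ((algebraMap Λ ↥(heckeAlg hp2 c) a * tOf h5 hc0 0 : ↥(heckeAlg hp2 c)) :
      Module.End Λ ↥(lamOrd hp2 c)) (F : ↥(lamOrd hp2 c)) = 0
    rw [← Algebra.smul_def, Subalgebra.coe_smul, LinearMap.smul_apply,
      tOf_zero_kills h5 hc0 hev _ F.2, smul_zero]

/-- The module of cuspidal families is free, of rank one less. -/
theorem cuspMod_free (h5 : 5 ≤ p) (hev : Even c) :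
    Module.Free Λ ↥(cuspMod hp2 c) ∧ Module.Finite Λ ↥(cuspMod hp2 c) ∧
      Module.finrank Λ ↥(cuspMod hp2 c) + 1 = Module.finrank Λ ↥(lamOrd hp2 c) := by
  obtain ⟨hfree, hfin, -⟩ := FA.LambdaForms.Summary.lambda_free (hp2 := hp2) (c := c) h5
  obtain ⟨e, he, π, hπ, hπS⟩ := exists_split (hp2 := hp2) h5 hev
  have hfin' : Module.Finite Λ ↥(cuspMod hp2 c) :=
    Module.Finite.of_surjective π fun Q => ⟨Q, hπS Q⟩
  have : Module.Projective Λ ↥(cuspMod hp2 c) :=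
    Module.Projective.of_split (cuspMod hp2 c).subtype π (LinearMap.ext hπS)
  have hfree' := Module.free_of_flat_of_isLocalRing (R := Λ) (P := ↥(cuspMod hp2 c))
  refine ⟨hfree', hfin', ?_⟩
  have hpe : π e = 0 := Subtype.ext (by rw [hπ, he, one_smul, sub_self]; rfl)
  obtain ⟨φ, -⟩ : ∃ φ : ↥(lamOrd hp2 c) ≃ₗ[Λ] ↥(cuspMod hp2 c) × Λ, True := by
    refine ⟨LinearEquiv.ofLinearMap (π.prod (coefL hp2 c 0))
      ((cuspMod hp2 c).subtype.coprod (LinearMap.toSpanSingleton Λ _ e)) ?_ ?_, trivial⟩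
    · refine LinearMap.ext fun ⟨Q, a⟩ => Prod.ext ?_ ?_
      · show π ((Q : ↥(lamOrd hp2 c)) + a • e) = Q
        rw [map_add, map_smul, hπS, hpe, smul_zero, add_zero]
      · show coefL hp2 c 0 ((Q : ↥(lamOrd hp2 c)) + a • e) = a
        rw [map_add, map_smul, he, show coefL hp2 c 0 (Q : ↥(lamOrd hp2 c)) = 0 from
          LinearMap.mem_ker.1 Q.2, zero_add, smul_eq_mul, mul_one]
    · refine LinearMap.ext fun F => ?_
      show (π F : ↥(lamOrd hp2 c)) + coefL hp2 c 0 F • e = F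
      rw [hπ, sub_add_cancel]
  rw [φ.finrank_eq, Module.finrank_prod, Module.finrank_self]

/-- The pairing on the cuspidal families. -/
def cuspPairing (hp2 : p ≠ 2) (h5 : 5 ≤ p) (hc0 : c ≠ 0) (hev : Even c) :
    ↥(cuspAlg hp2 h5 hc0 hev) →ₗ[PowerSeries ℤ_[p]]
      Module.Dual (PowerSeries ℤ_[p]) ↥(cuspMod hp2 c) where
  toFun g := ((coefL hp2 c 1).comp (cuspMod hp2 c).subtype).comp
    (g : Module.End (PowerSeries ℤ_[p]) ↥(cuspMod hp2 c))
  map_add' g g' := LinearMap.ext fun F => by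
    simp only [LinearMap.comp_apply, LinearMap.add_apply, Subalgebra.coe_add, map_add]
  map_smul' a g := LinearMap.ext fun F => by
    simp only [LinearMap.comp_apply, LinearMap.smul_apply, Subalgebra.coe_smul, map_smul,
      RingHom.id_apply]

theorem cuspPairing_map (h : ↥(heckeAlg hp2 c)) (F : ↥(cuspMod hp2 c)) :
    cuspPairing hp2 h5 hc0 hev (cuspMap hp2 h5 hc0 hev h) F =
      pairing hp2 c h (F : ↥(lamOrd hp2 c)) := rfl

/-- **Duality for the cuspidal families.** -/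
theorem cuspPairing_bijective : Function.Bijective (cuspPairing hp2 h5 hc0 hev) := by
  obtain ⟨e, he, π, hπ, hπS⟩ := exists_split (hp2 := hp2) h5 hev
  refine ⟨LinearMap.ker_eq_bot.1 (LinearMap.ker_eq_bot'.2 fun g hg => ?_), fun ψ => ?_⟩
  · obtain ⟨h, rfl⟩ := cuspMap_surjective g
    refine (cuspMap_eq_zero h).2 ⟨pairing hp2 c h e,
      pairing_injective h5 hc0 (LinearMap.ext fun F => ?_)⟩
    rw [← Algebra.smul_def, map_smul, LinearMap.smul_apply, pairing_tOf, smul_eq_mul]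
    have h1 := LinearMap.congr_fun hg (π F)
    rw [cuspPairing_map, LinearMap.zero_apply, hπ, map_sub, map_smul, sub_eq_zero,
      smul_eq_mul] at h1
    rw [h1, mul_comm]
  · obtain ⟨h, hh⟩ := (pairing_bijective h5 hc0).2 (ψ.comp π)
    refine ⟨cuspMap hp2 h5 hc0 hev h, LinearMap.ext fun F => ?_⟩
    rw [cuspPairing_map, hh, LinearMap.comp_apply, hπS]

/-- The cuspidal algebra is free, of rank one less. -/
theorem cuspAlg_free : Module.Free Λ ↥(cuspAlg hp2 h5 hc0 hev) ∧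
    Module.Finite Λ ↥(cuspAlg hp2 h5 hc0 hev) ∧
      Module.finrank Λ ↥(cuspAlg hp2 h5 hc0 hev) = Module.finrank Λ ↥(cuspMod hp2 c) := by
  obtain ⟨hfree, hfin, -⟩ := cuspMod_free (hp2 := hp2) (c := c) h5 hev
  have b := Module.Free.chooseBasis Λ ↥(cuspMod hp2 c)
  have := Module.Free.ChooseBasisIndex.fintype Λ ↥(cuspMod hp2 c)
  classical
  have b' := b.dualBasis.map
    (LinearEquiv.ofBijective (cuspPairing hp2 h5 hc0 hev) cuspPairing_bijective).symm
  exact ⟨.of_basis b', .of_basis b', by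
    rw [Module.finrank_eq_card_basis b', Module.finrank_eq_card_basis b]⟩

/-- The image of the Eisenstein ideal. -/
def eisIdeal (hp2 : p ≠ 2) (h5 : 5 ≤ p) (hc0 : c ≠ 0) (hev : Even c) :
    Ideal ↥(cuspAlg hp2 h5 hc0 hev) :=
  (RingHom.ker (eisHom hp2 h5 hc0 hev)).map (cuspMap hp2 h5 hc0 hev)

theorem eisHom_tOf_zero : eisHom hp2 h5 hc0 hev (tOf h5 hc0 0) = zetaLam hp2 h5 hc0 hev :=
  eisHom_tOf 0

theorem sub_mem_eisIdeal (h : ↥(heckeAlg hp2 c)) :
    cuspMap hp2 h5 hc0 hev h - algebraMap Λ ↥(cuspAlg hp2 h5 hc0 hev)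
      (eisHom hp2 h5 hc0 hev h) ∈ eisIdeal hp2 h5 hc0 hev := by
  rw [← AlgHom.commutes (cuspMap hp2 h5 hc0 hev), ← map_sub]
  refine Ideal.mem_map_of_mem _ ?_
  rw [RingHom.mem_ker, map_sub, eisHom_algebraMap, sub_self]

theorem algebraMap_mem_eisIdeal (a : PowerSeries ℤ_[p]) :
    algebraMap Λ ↥(cuspAlg hp2 h5 hc0 hev) a ∈ eisIdeal hp2 h5 hc0 hev ↔
      zetaLam hp2 h5 hc0 hev ∣ a := by
  constructor
  · intro ha
    obtain ⟨i, hi, e⟩ := (Ideal.mem_map_iff_of_surjective _ cuspMap_surjective).1 ha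
    have h0 : cuspMap hp2 h5 hc0 hev (i - algebraMap Λ ↥(heckeAlg hp2 c) a) = 0 := by
      rw [map_sub, AlgHom.commutes, e, sub_self]
    obtain ⟨b, hb⟩ := (cuspMap_eq_zero _).1 h0
    have e2 := congrArg (eisHom hp2 h5 hc0 hev) hb
    rw [map_sub, map_mul, eisHom_algebraMap, eisHom_algebraMap, RingHom.mem_ker.1 hi,
      eisHom_tOf_zero] at e2
    exact ⟨-b, by linear_combination -e2⟩
  · rintro ⟨b, rfl⟩
    rw [map_mul]
    refine Ideal.mul_mem_right _ _ ?_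
    have h0 : cuspMap hp2 h5 hc0 hev (tOf h5 hc0 0) = 0 :=
      (cuspMap_eq_zero _).2 ⟨1, by rw [map_one, one_mul]⟩
    have h1 := sub_mem_eisIdeal (hp2 := hp2) (h5 := h5) (hc0 := hc0) (hev := hev) (tOf h5 hc0 0)
    rw [h0, zero_sub, eisHom_tOf_zero] at h1
    exact (Ideal.neg_mem_iff _).1 h1

/-- **The congruence module**: `TT⁰ / I = Λ / (ζ)`. -/
theorem congruence_equiv : Nonempty (Λ ⧸ Ideal.span {zetaLam hp2 h5 hc0 hev} ≃+*
    ↥(cuspAlg hp2 h5 hc0 hev) ⧸ eisIdeal hp2 h5 hc0 hev) := by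
  obtain ⟨φ, hφ⟩ : ∃ φ : Λ →+* ↥(cuspAlg hp2 h5 hc0 hev) ⧸ eisIdeal hp2 h5 hc0 hev,
      φ = (Ideal.Quotient.mk _).comp (algebraMap Λ ↥(cuspAlg hp2 h5 hc0 hev)) := ⟨_, rfl⟩
  have hker : Ideal.span {zetaLam hp2 h5 hc0 hev} = RingHom.ker φ := by
    ext a
    rw [Ideal.mem_span_singleton, RingHom.mem_ker, hφ, RingHom.comp_apply,
      Ideal.Quotient.eq_zero_iff_mem, algebraMap_mem_eisIdeal]
  have hsurj : Function.Surjective φ := fun q => by
    obtain ⟨g, rfl⟩ := Ideal.Quotient.mk_surjective q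
    obtain ⟨h, rfl⟩ := cuspMap_surjective g
    refine ⟨eisHom hp2 h5 hc0 hev h, ?_⟩
    rw [hφ, RingHom.comp_apply, eq_comm, Ideal.Quotient.eq]
    exact sub_mem_eisIdeal h
  exact ⟨(Ideal.quotEquivOfEq hker).trans (RingHom.quotientKerEquivOfSurjective hsurj)⟩

/-- An Eisenstein maximal ideal exists exactly when the zeta element is not a unit. -/
theorem exists_maximal_iff :
    (∃ m : Ideal ↥(cuspAlg hp2 h5 hc0 hev), m.IsMaximal ∧ eisIdeal hp2 h5 hc0 hev ≤ m) ↔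
      ¬IsUnit (zetaLam hp2 h5 hc0 hev) := by
  rw [isUnit_iff_dvd_one, ← algebraMap_mem_eisIdeal, map_one, ← Ideal.eq_top_iff_one]
  exact ⟨fun ⟨m, hm, hle⟩ e => hm.ne_top (top_le_iff.1 (e ▸ hle)),
    fun h => Ideal.exists_le_maximal _ h⟩

/-- A maximal ideal lies over every weight, and every prime above a family. -/
theorem cusp_lift (m : Ideal ↥(cuspAlg hp2 h5 hc0 hev)) [m.IsMaximal] (s : ℤ_[p]) :
    ∃ P ≤ m, P.IsPrime ∧
      P.comap (algebraMap Λ ↥(cuspAlg hp2 h5 hc0 hev)) = RingHom.ker (evalLam hp2 s) ∧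
      ∃ P₀ ≤ P, P₀.IsPrime ∧ P₀.comap (algebraMap Λ ↥(cuspAlg hp2 h5 hc0 hev)) = ⊥ := by
  obtain ⟨hfree, hfin, -⟩ := cuspAlg_free (hp2 := hp2) (h5 := h5) (hc0 := hc0) (hev := hev)
  have : Module.Flat Λ ↥(cuspAlg hp2 h5 hc0 hev) := Module.Flat.of_free
  have hgd : Algebra.HasGoingDown Λ ↥(cuspAlg hp2 h5 hc0 hev) := Algebra.HasGoingDown.of_flat
  have := ker_evalLam_isPrime (hp2 := hp2) s
  have hle : RingHom.ker (evalLam hp2 s) ≤ m.under Λ := by
    have hmax : (m.under Λ).IsMaximal := Ideal.isMaximal_comap_of_isIntegral_of_isMaximal m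
    rw [← IsLocalRing.eq_maximalIdeal hmax |>.symm]
    exact IsLocalRing.le_maximalIdeal (Ideal.IsPrime.ne_top inferInstance)
  have : m.LiesOver (m.under Λ) := ⟨rfl⟩
  obtain ⟨P, hPm, hP, hPo⟩ := Ideal.exists_ideal_le_liesOver_of_le m hle
  have : (⊥ : Ideal Λ).IsPrime := Ideal.isPrime_bot
  have : P.LiesOver (P.under Λ) := ⟨rfl⟩
  obtain ⟨P₀, h1, h2, h3⟩ := Ideal.exists_ideal_le_liesOver_of_le (p := (⊥ : Ideal Λ))
    (q := P.under Λ) P bot_le
  exact ⟨P, hPm, hP, hPo.over.symm, P₀, h1, h2, h3.over.symm⟩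

/-- An expansion in cuspidal families. -/
theorem cusp_expansion {R : Type*} [CommRing R] (h5 : 5 ≤ p) (hc0 : c ≠ 0) (hev : Even c)
    (lam : ↥(heckeAlg hp2 c) →+* R) (h0 : coeff 0 (eigSer h5 hc0 lam) = 0) :
    ∃ (r : ℕ) (x : Fin r → R) (G : Fin r → ↥(cuspMod hp2 c)), eigSer h5 hc0 lam =
      ∑ j, C (x j) * ((G j : ↥(lamOrd hp2 c)) : PowerSeries Λ).map
        (lam.comp (algebraMap Λ ↥(heckeAlg hp2 c))) := by
  obtain ⟨r, x, G, hG, e⟩ := eigSer_expansion h5 hc0 lam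
  obtain ⟨e₀, he₀, π, hπ, -⟩ := exists_split (hp2 := hp2) h5 hev
  obtain ⟨ψ, hψ⟩ : ∃ ψ : Λ →+* R, ψ = lam.comp (algebraMap Λ ↥(heckeAlg hp2 c)) := ⟨_, rfl⟩
  rw [← hψ] at e ⊢
  refine ⟨r, x, fun j => π ⟨G j, (mem_lamOrd h5).2 (hG j)⟩, ?_⟩
  have hsum : ∑ j, x j * ψ (coeff 0 (G j)) = 0 := by
    rw [← h0, e, map_sum]
    exact Finset.sum_congr rfl fun j _ => by rw [coeff_C_mul, coeff_map]
  have hterm : ∀ j, C (x j) *
      ((π ⟨G j, (mem_lamOrd h5).2 (hG j)⟩ : ↥(lamOrd hp2 c)) : PowerSeries Λ).map ψ =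
      C (x j) * (G j).map ψ - C (x j * ψ (coeff 0 (G j))) * (e₀ : PowerSeries Λ).map ψ := fun j => by
    rw [hπ, Submodule.coe_sub, Submodule.coe_smul, PowerSeries.smul_eq_C_mul, map_sub, map_mul,
      map_C, coefL_apply, mul_sub, map_mul, mul_assoc]
  rw [Finset.sum_congr rfl fun j _ => hterm j, Finset.sum_sub_distrib, ← Finset.sum_mul, ← map_sum,
    hsum, map_zero, zero_mul, sub_zero, e]

end FA.LambdaEisenstein

end
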