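import Fermat.Agent.LambdaEisenstein.Family
import Mathlib.RingTheory.LocalRing.Module

/-!
# The constant and the cuspidal families

The constant is onto `Λ`; its kernel is stable under the Hecke algebra, which acts on the quotient
through the Eisenstein system.
-/

set_option autoImplicit false
set_option linter.unusedSectionVars false

noncomputable section

open UpperHalfPlane hiding I
open PowerSeries Filter Topology
open scoped MatrixGroups ModularForm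

namespace FA.LambdaEisenstein

open FA.PadicForms FA.OrdinaryProj FA.LambdaForms FA.LambdaHecke

variable {p : ℕ} [Fact p.Prime] {hp2 : p ≠ 2} {c : ZMod (p - 1)}
  {h5 : 5 ≤ p} {hc0 : c ≠ 0} {hev : Even c}

local notation "Λ" => PowerSeries ℤ_[p]

theorem exists_double (h5 : 5 ≤ p) (hev : Even c) :
    ∃ j : ℕ, c = ((2 * j : ℕ) : ZMod (p - 1)) := by
  have : NeZero (p - 1) := ⟨by omega⟩
  obtain ⟨r, rfl⟩ := hev
  exact ⟨r.val, by rw [Nat.cast_mul, ZMod.natCast_zmod_val, Nat.cast_two, two_mul]⟩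

theorem exists_eisFam' (h5 : 5 ≤ p) (hc0 : c ≠ 0) (hev : Even c) :
    ∃ E : ↥(lamOrd hp2 c), (∀ n, 1 ≤ n → coeff n (E : PowerSeries Λ) = starLam c n) ∧
      ∀ k : ℕ, Even k → 2 ≤ k → (k : ZMod (p - 1)) = c →
        toQps p (spec hp2 (k : ℤ_[p]) (E : PowerSeries Λ)) = toQp p (eisStar p k) := by
  obtain ⟨j, hj⟩ := exists_double h5 hev
  exact exists_eisFam h5 hc0 hj

/-- The Eisenstein family. -/
def eisFam (hp2 : p ≠ 2) (h5 : 5 ≤ p) (hc0 : c ≠ 0) (hev : Even c) : ↥(lamOrd hp2 c) :=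
  (exists_eisFam' (hp2 := hp2) h5 hc0 hev).choose

/-- Its constant, the zeta element. -/
def zetaLam (hp2 : p ≠ 2) (h5 : 5 ≤ p) (hc0 : c ≠ 0) (hev : Even c) : PowerSeries ℤ_[p] :=
  coeff 0 (eisFam hp2 h5 hc0 hev : PowerSeries (PowerSeries ℤ_[p]))

theorem coeff_eisFam {n : ℕ} (hn : 1 ≤ n) :
    coeff n (eisFam hp2 h5 hc0 hev : PowerSeries Λ) = starLam c n :=
  (exists_eisFam' (hp2 := hp2) h5 hc0 hev).choose_spec.1 n hn

theorem spec_eisFam {k : ℕ} (hk2 : Even k) (hk : 2 ≤ k) (hkc : (k : ZMod (p - 1)) = c) :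
    toQps p (spec hp2 (k : ℤ_[p]) (eisFam hp2 h5 hc0 hev : PowerSeries Λ)) =
      toQp p (eisStar p k) :=
  (exists_eisFam' (hp2 := hp2) h5 hc0 hev).choose_spec.2 k hk2 hk hkc

theorem eisFam_uSer :
    uSer p (eisFam hp2 h5 hc0 hev : PowerSeries Λ) = (eisFam hp2 h5 hc0 hev : PowerSeries Λ) :=
  PowerSeries.ext fun n => by
    rw [coeff_uSer]
    rcases Nat.eq_zero_or_pos n with rfl | hn
    · rw [mul_zero]
    · rw [coeff_eisFam hn, coeff_eisFam (Nat.mul_pos (Fact.out : p.Prime).pos hn),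
        starLam_mul_prime hn.ne']

theorem eisFam_tSer {l : ℕ} (hl : l.Prime) (hlp : l ≠ p) :
    tSer (thetaLam c l) l (eisFam hp2 h5 hc0 hev : PowerSeries Λ) =
      C (1 + thetaLam c l) * (eisFam hp2 h5 hc0 hev : PowerSeries Λ) := by
  refine PowerSeries.ext fun n => ?_
  rw [coeff_tSer, coeff_C_mul]
  rcases Nat.eq_zero_or_pos n with rfl | hn
  · rw [zero_mul, if_pos (dvd_zero l), Nat.zero_div]
    ring
  rw [coeff_eisFam hn, coeff_eisFam (Nat.mul_pos hn hl.pos)]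
  have hd : ¬p ∣ l := fun e => hlp ((Nat.prime_dvd_prime_iff_eq Fact.out hl).1 e).symm
  obtain ⟨j, hj⟩ := exists_double h5 hev
  refine eq_of_even_weights (hp2 := hp2) h5 hj fun k hk2 hk hkc => ?_
  have hk1 : 1 ≤ k := by omega
  have h := congrArg (fun m : ℕ => (m : ℤ_[p])) (starSum_mul (p := p) (k := k) hl hlp n)
  by_cases hln : l ∣ n
  · have hq : 1 ≤ n / l := Nat.div_pos (Nat.le_of_dvd hn hln) hl.pos
    rw [if_pos hln] at h ⊢
    rw [coeff_eisFam hq, map_add, map_mul, map_mul, map_add, map_one,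
      evalLam_starLam h5 hk1 hkc, evalLam_starLam h5 hk1 hkc, evalLam_starLam h5 hk1 hkc,
      evalLam_thetaLam h5 hd hk1 hkc]
    push_cast at h
    linear_combination h
  · rw [if_neg hln] at h ⊢
    rw [add_zero, map_mul, map_add, map_one, evalLam_starLam h5 hk1 hkc,
      evalLam_starLam h5 hk1 hkc, evalLam_thetaLam h5 hd hk1 hkc]
    push_cast at h
    linear_combination h

theorem exists_eisHom (h5 : 5 ≤ p) (hc0 : c ≠ 0) (hev : Even c) :
    ∃ lam : ↥(heckeAlg hp2 c) →+* PowerSeries ℤ_[p],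
      (∀ a, lam (algebraMap Λ ↥(heckeAlg hp2 c) a) = a) ∧
        eigSer h5 hc0 lam = (eisFam hp2 h5 hc0 hev : PowerSeries Λ) := by
  have hid : ∀ G : PowerSeries (PowerSeries ℤ_[p]), G.map (RingHom.id Λ) = G := fun G =>
    PowerSeries.ext fun n => by simp
  have h1 : coeff 1 (eisFam hp2 h5 hc0 hev : PowerSeries Λ) = 1 := by
    rw [coeff_eisFam le_rfl]
    obtain ⟨j, hj⟩ := exists_double h5 hev
    refine eq_of_even_weights (hp2 := hp2) h5 hj fun k _ hk hkc => ?_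
    rw [evalLam_starLam h5 (by omega) hkc, map_one, starSum, Nat.divisors_one,
      Finset.sum_filter, Finset.sum_singleton, if_pos (Fact.out : p.Prime).not_dvd_one, one_pow,
      Nat.cast_one]
  obtain ⟨lam, ha, he⟩ := exists_hom h5 hc0 (φ := RingHom.id Λ)
    ((mem_lamOrd h5).1 (eisFam hp2 h5 hc0 hev).2) (by rw [hid, h1])
    ⟨1, by rw [hid, map_one, one_mul, eisFam_uSer]⟩
    fun l hl hlp => ⟨1 + thetaLam c l, by rw [hid]; exact eisFam_tSer hl hlp⟩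
  rw [hid] at he
  exact ⟨lam, ha, he⟩

/-- **The Eisenstein system.** -/
def eisHom (hp2 : p ≠ 2) (h5 : 5 ≤ p) (hc0 : c ≠ 0) (hev : Even c) :
    ↥(heckeAlg hp2 c) →+* PowerSeries ℤ_[p] :=
  (exists_eisHom (hp2 := hp2) h5 hc0 hev).choose

theorem eisHom_algebraMap (a : PowerSeries ℤ_[p]) :
    eisHom hp2 h5 hc0 hev (algebraMap Λ ↥(heckeAlg hp2 c) a) = a :=
  (exists_eisHom (hp2 := hp2) h5 hc0 hev).choose_spec.1 a

theorem eisHom_tOf (n : ℕ) :
    eisHom hp2 h5 hc0 hev (tOf h5 hc0 n) = coeff n (eisFam hp2 h5 hc0 hev : PowerSeries Λ) := by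
  rw [← coeff_eigSer (lam := eisHom hp2 h5 hc0 hev)]
  exact congrArg (coeff n) (exists_eisHom (hp2 := hp2) h5 hc0 hev).choose_spec.2

theorem eisHom_uGen {U : ↥(heckeAlg hp2 c)} (hU : ∀ F,
    ((U : Module.End Λ ↥(lamOrd hp2 c)) F : PowerSeries Λ) = uSer p (F : PowerSeries Λ)) :
    eisHom hp2 h5 hc0 hev U = 1 := by
  have e := tOf_uSer (h5 := h5) (hc0 := hc0) hU 1
  rw [tOf_one, mul_one, mul_one] at e
  rw [e, eisHom_tOf, coeff_eisFam (Fact.out : p.Prime).one_le,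
    show starLam c p = starLam c (p * 1) by rw [mul_one], starLam_mul_prime one_ne_zero,
    ← coeff_eisFam (hp2 := hp2) (h5 := h5) (hc0 := hc0) (hev := hev) le_rfl, ← eisHom_tOf, tOf_one,
    map_one]

theorem eisHom_tGen {l : ℕ} (hl : l.Prime) (hlp : l ≠ p) {T : ↥(heckeAlg hp2 c)} (hT : ∀ F,
    ((T : Module.End Λ ↥(lamOrd hp2 c)) F : PowerSeries Λ) =
      tSer (thetaLam c l) l (F : PowerSeries Λ)) :
    eisHom hp2 h5 hc0 hev T = 1 + thetaLam c l := by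
  have e := congrArg (coeff 1) (eisFam_tSer (hp2 := hp2) (h5 := h5) (hc0 := hc0) (hev := hev) hl hlp)
  rw [coeff_tSer, coeff_C_mul, if_neg hl.not_dvd_one, add_zero, one_mul, ← eisHom_tOf, ← eisHom_tOf,
    tOf_one, map_one, mul_one] at e
  have e' := tOf_tSer (h5 := h5) (hc0 := hc0) hT 1
  rw [tOf_one, mul_one, if_neg hl.not_dvd_one, add_zero, one_mul] at e'
  rw [e', e]

/-- **The constant transforms by the Eisenstein system.** -/
theorem constant_apply (h5 : 5 ≤ p) (hc0 : c ≠ 0) (hev : Even c) (h : ↥(heckeAlg hp2 c))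
    (F : ↥(lamOrd hp2 c)) :
    coefL hp2 c 0 ((h : Module.End Λ ↥(lamOrd hp2 c)) F) =
      eisHom hp2 h5 hc0 hev h * coefL hp2 c 0 F := by
  obtain ⟨h, hh⟩ := h
  induction hh using Algebra.adjoin_induction generalizing F with
  | mem h hh =>
    have hmem := Algebra.subset_adjoin (R := PowerSeries ℤ_[p]) hh
    rcases hh with hh' | ⟨l, hl, hlp, hh'⟩
    · rw [eisHom_uGen (U := ⟨h, hmem⟩) hh', one_mul, coefL_apply, coefL_apply, hh', coeff_uSer,
        mul_zero]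
    · rw [eisHom_tGen (T := ⟨h, hmem⟩) hl hlp hh', coefL_apply, coefL_apply, hh', coeff_tSer,
        zero_mul, if_pos (dvd_zero l), Nat.zero_div]
      ring
  | algebraMap a =>
    rw [show (⟨algebraMap Λ (Module.End Λ ↥(lamOrd hp2 c)) a, _⟩ : ↥(heckeAlg hp2 c)) =
      algebraMap Λ ↥(heckeAlg hp2 c) a from rfl, eisHom_algebraMap]
    show coefL hp2 c 0 (algebraMap Λ (Module.End Λ ↥(lamOrd hp2 c)) a F) = _
    rw [Module.algebraMap_end_apply, map_smul, smul_eq_mul]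
  | add a b ha hb iha ihb =>
    rw [show (⟨a + b, _⟩ : ↥(heckeAlg hp2 c)) = (⟨a, ha⟩ : ↥(heckeAlg hp2 c)) + ⟨b, hb⟩ from rfl,
      map_add (eisHom hp2 h5 hc0 hev)]
    show coefL hp2 c 0 ((a + b) F) = _
    rw [LinearMap.add_apply, map_add, iha, ihb, add_mul]
  | mul a b ha hb iha ihb =>
    rw [show (⟨a * b, _⟩ : ↥(heckeAlg hp2 c)) = (⟨a, ha⟩ : ↥(heckeAlg hp2 c)) * ⟨b, hb⟩ from rfl,
      map_mul (eisHom hp2 h5 hc0 hev)]
    show coefL hp2 c 0 ((a * b) F) = _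
    rw [Module.End.mul_apply, iha, ihb, mul_assoc]

/-- A form with constant `1` in each even weight `k ≥ 4`. -/
theorem exists_one_form {k : ℕ} (hk : 4 ≤ k) (hk2 : Even k) :
    ∃ (S : PowerSeries ℚ) (g : PowerSeries ℤ_[p]), IsRatForm k S ∧ toQps p g = toQp p S ∧
      coeff 0 g = 1 := by
  obtain ⟨a, b, hab⟩ : ∃ a b : ℕ, 4 * a + 6 * b = k := by
    obtain ⟨m, rfl⟩ := hk2
    rcases Nat.even_or_odd' m with ⟨t, rfl | rfl⟩
    · exact ⟨t, 0, by omega⟩
    · exact ⟨t - 1, 1, by omega⟩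
  have h4 : IsRatForm 4 (FA.Tau.eFourInt.map (Int.castRingHom ℚ)) :=
    IsRatForm.of_int (F := ModularForm.E₄) FA.Tau.qExpansion_eFour
  have h6 : IsRatForm 6 (FA.Tau.eSixInt.map (Int.castRingHom ℚ)) :=
    IsRatForm.of_int (F := ModularForm.E₆) FA.Tau.qExpansion_eSix
  have h := (h4.pow a).mul (h6.pow b)
  rw [show a * 4 + b * 6 = k by omega, ← map_pow, ← map_pow, ← map_mul] at h
  refine ⟨_, (FA.Tau.eFourInt ^ a * FA.Tau.eSixInt ^ b).map (Int.castRingHom ℤ_[p]), h,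
    (fun T => PowerSeries.ext fun n => by simp : ∀ T : PowerSeries ℤ,
      toQps p (T.map (Int.castRingHom ℤ_[p])) = toQp p (T.map (Int.castRingHom ℚ))) _, ?_⟩
  rw [coeff_map, coeff_zero_eq_constantCoeff_apply, map_mul, map_pow, map_pow]
  simp [FA.Tau.eFourInt, FA.Tau.eSixInt, ← coeff_zero_eq_constantCoeff_apply]

/-- **The constant is onto.** -/
theorem exists_constant_one (h5 : 5 ≤ p) (hev : Even c) :
    ∃ e : ↥(lamOrd hp2 c), coefL hp2 c 0 e = 1 := by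
  obtain ⟨j, hj⟩ := exists_double h5 hev
  obtain ⟨k, hk, hk2, hkc⟩ : ∃ k : ℕ, 4 ≤ k ∧ Even k ∧ (k : ZMod (p - 1)) = c :=
    ⟨2 * (j + (p - 1)), by omega, even_two_mul _, by
      rw [hj]
      push_cast [ZMod.natCast_self]
      ring⟩
  obtain ⟨S, g, hS, hg, hg0⟩ := exists_one_form (p := p) hk hk2
  obtain ⟨E, hE, hE1, -, -⟩ := exists_unit_family h5 hp2
  obtain ⟨E', hE'⟩ := exists_shift_family (hp2 := hp2) (-(k : ℤ_[p])) E
  obtain ⟨F, hF⟩ : ∃ F, F = E' * constFam g := ⟨_, rfl⟩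
  have hFform : ∀ s, IsIntForm ((c, s) : Weights p) (spec hp2 s F) := fun s => by
    have h1 := IsPadicForm.mul (hE (s + -(k : ℤ_[p]))) (hS.isPadicForm (p := p))
    rw [← hg, ← map_mul] at h1
    rw [hF, map_mul, spec_constFam, hE']
    have e : ((0, s + -(k : ℤ_[p])) : Weights p) + natWeight p k = (c, s) :=
      Prod.ext ((zero_add _).trans hkc) (neg_add_cancel_right s _)
    rw [e] at h1
    exact h1
  obtain ⟨G, hG, hGe⟩ := exists_ordProj_family h5 hFform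
  have h0 : coeff 0 (spec hp2 0 G) = coeff 0 (spec hp2 0 F) := by
    refine Subtype.ext ?_
    have h := congrArg (coeff 0) (hGe 0)
    rw [coeff_toQps] at h
    rw [h, ← coeff_toQps]
    refine tendsto_nhds_unique (tendsto_coeff (ordProj_spec h5 (hFform 0)).1 0)
      (tendsto_const_nhds.congr fun i => ?_)
    rw [coeff_uPow, mul_zero]
  have hu : IsUnit (coefL hp2 c 0 ⟨G, (mem_lamOrd h5).2 hG⟩) := by
    rw [coefL_apply, PowerSeries.isUnit_iff_constantCoeff]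
    by_contra hn
    have h1 : PadicInt.toZMod (coeff 0 (spec hp2 0 G)) = 0 := by
      rw [coeff_spec, toZMod_evalLam,
        FA.PadicIwasawa.toZMod_eq_zero_iff_norm.2 (PadicInt.not_isUnit_iff.1 hn)]
    have h2 : coeff 0 (spec hp2 0 F) = coeff 0 (spec hp2 0 E') := by
      rw [hF, map_mul, spec_constFam, coeff_zero_eq_constantCoeff_apply, map_mul,
        ← coeff_zero_eq_constantCoeff_apply, ← coeff_zero_eq_constantCoeff_apply, hg0, mul_one]
    have h3 : PadicInt.toZMod (coeff 0 (spec hp2 0 E')) = 1 := by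
      rw [hE', spec, ← coeff_redSer, hE1, coeff_one, if_pos rfl]
    rw [h0, h2, h3] at h1
    exact one_ne_zero h1
  obtain ⟨u, hu⟩ := hu
  exact ⟨(↑u⁻¹ : Λ) • ⟨G, (mem_lamOrd h5).2 hG⟩, by rw [map_smul, ← hu, smul_eq_mul, Units.inv_mul]⟩

/-- **The cuspidal families**: constant zero. -/
def cuspMod (hp2 : p ≠ 2) (c : ZMod (p - 1)) :
    Submodule (PowerSeries ℤ_[p]) ↥(lamOrd hp2 c) := LinearMap.ker (coefL hp2 c 0)

theorem mem_cuspMod {F : ↥(lamOrd hp2 c)} :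
    F ∈ cuspMod hp2 c ↔ coeff 0 (F : PowerSeries Λ) = 0 := LinearMap.mem_ker

/-- The projection along a form with constant `1`. -/
theorem exists_split (h5 : 5 ≤ p) (hev : Even c) :
    ∃ e : ↥(lamOrd hp2 c), coefL hp2 c 0 e = 1 ∧
      ∃ π : ↥(lamOrd hp2 c) →ₗ[PowerSeries ℤ_[p]] ↥(cuspMod hp2 c),
        (∀ F, (π F : ↥(lamOrd hp2 c)) = F - coefL hp2 c 0 F • e) ∧ ∀ Q : ↥(cuspMod hp2 c), π (Q : ↥(lamOrd hp2 c)) = Q := by
  obtain ⟨e, he⟩ := exists_constant_one (hp2 := hp2) h5 hev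
  have hmem : ∀ F, ((LinearMap.id : ↥(lamOrd hp2 c) →ₗ[Λ] ↥(lamOrd hp2 c)) -
      (coefL hp2 c 0).smulRight e) F ∈ cuspMod hp2 c := fun F => by
    refine LinearMap.mem_ker.2 ?_
    simp [he]
  refine ⟨e, he, LinearMap.codRestrict (cuspMod hp2 c) _ hmem, fun F => rfl, fun Q => ?_⟩
  refine Subtype.ext ?_
  show (Q : ↥(lamOrd hp2 c)) - coefL hp2 c 0 (Q : ↥(lamOrd hp2 c)) • e = Q
  have hQ : coefL hp2 c 0 (Q : ↥(lamOrd hp2 c)) = 0 := LinearMap.mem_ker.1 Q.2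
  rw [hQ, zero_smul, sub_zero]

theorem cusp_stable (h5 : 5 ≤ p) (hc0 : c ≠ 0) (hev : Even c) (h : ↥(heckeAlg hp2 c))
    (F : ↥(lamOrd hp2 c)) (hF : F ∈ cuspMod hp2 c) :
    (h : Module.End Λ ↥(lamOrd hp2 c)) F ∈ cuspMod hp2 c := by
  rw [cuspMod, LinearMap.mem_ker] at hF ⊢
  rw [constant_apply h5 hc0 hev, hF, mul_zero]

/-- The action on the cuspidal families. -/
def cuspRes (hp2 : p ≠ 2) (h5 : 5 ≤ p) (hc0 : c ≠ 0) (hev : Even c) :
    ↥(heckeAlg hp2 c) →ₐ[PowerSeries ℤ_[p]]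
      Module.End (PowerSeries ℤ_[p]) ↥(cuspMod hp2 c) where
  toFun h := (h : Module.End Λ ↥(lamOrd hp2 c)).restrict fun _ hF => cusp_stable h5 hc0 hev h _ hF
  map_one' := LinearMap.ext fun _ => Subtype.ext rfl
  map_mul' _ _ := LinearMap.ext fun _ => Subtype.ext rfl
  map_zero' := LinearMap.ext fun _ => Subtype.ext rfl
  map_add' _ _ := LinearMap.ext fun _ => Subtype.ext rfl
  commutes' _ := LinearMap.ext fun _ => Subtype.ext rfl

theorem coe_cuspRes (h : ↥(heckeAlg hp2 c)) (F : ↥(cuspMod hp2 c)) :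
    ((cuspRes hp2 h5 hc0 hev h F : ↥(cuspMod hp2 c)) : ↥(lamOrd hp2 c)) =
      (h : Module.End Λ ↥(lamOrd hp2 c)) (F : ↥(lamOrd hp2 c)) := rfl

/-- **The cuspidal Hecke algebra.** -/
def cuspAlg (hp2 : p ≠ 2) (h5 : 5 ≤ p) (hc0 : c ≠ 0) (hev : Even c) :
    Subalgebra (PowerSeries ℤ_[p]) (Module.End (PowerSeries ℤ_[p]) ↥(cuspMod hp2 c)) :=
  (cuspRes hp2 h5 hc0 hev).range

theorem cuspAlg_comm (a b : ↥(cuspAlg hp2 h5 hc0 hev)) :
    (a : Module.End Λ ↥(cuspMod hp2 c)) * (b : Module.End Λ ↥(cuspMod hp2 c)) =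
      (b : Module.End Λ ↥(cuspMod hp2 c)) * (a : Module.End Λ ↥(cuspMod hp2 c)) := by
  obtain ⟨a, g, rfl⟩ := a
  obtain ⟨b, h, rfl⟩ := b
  show cuspRes hp2 h5 hc0 hev g * cuspRes hp2 h5 hc0 hev h = _
  rw [← map_mul, mul_comm, map_mul]
  rfl

instance : CommRing ↥(cuspAlg hp2 h5 hc0 hev) where
  toRing := Algebra.semiringToRing (PowerSeries ℤ_[p])
  mul_comm a b := Subtype.ext (cuspAlg_comm a b)

/-- The map onto the cuspidal algebra. -/
def cuspMap (hp2 : p ≠ 2) (h5 : 5 ≤ p) (hc0 : c ≠ 0) (hev : Even c) :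
    ↥(heckeAlg hp2 c) →ₐ[PowerSeries ℤ_[p]] ↥(cuspAlg hp2 h5 hc0 hev) :=
  (cuspRes hp2 h5 hc0 hev).rangeRestrict

theorem cuspMap_surjective : Function.Surjective (cuspMap hp2 h5 hc0 hev) := by
  rintro ⟨_, h, rfl⟩
  exact ⟨h, rfl⟩

end FA.LambdaEisenstein

end
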