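import Fermat.Agent.LambdaHecke.Eigen
import Fermat.Agent.Root.SummaryLambdaAdic

/-!
# The Eisenstein family of an even class other than `0`

Its coefficients of positive index are the sums of `θ d` over the divisors prime to `p`; Serre's
argument gives the constant: it is determined by the others through the duality.
-/

set_option autoImplicit false
set_option linter.unusedSectionVars false

noncomputable section

open PowerSeries Filter Topology

namespace FA.LambdaEisenstein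

open FA.PadicForms FA.OrdinaryProj FA.LambdaForms FA.LambdaHecke

variable {p : ℕ} [Fact p.Prime] {hp2 : p ≠ 2} {c : ZMod (p - 1)}

local notation "Λ" => PowerSeries ℤ_[p]

/-- The values at the large even weights of the class decide an element of `Λ`. -/
theorem eq_of_even_weights (h5 : 5 ≤ p) {j : ℕ} (hc : c = ((2 * j : ℕ) : ZMod (p - 1)))
    {x y : PowerSeries ℤ_[p]}
    (h : ∀ k : ℕ, Even k → 4 ≤ k → (k : ZMod (p - 1)) = c →
      evalLam hp2 (k : ℤ_[p]) x = evalLam hp2 (k : ℤ_[p]) y) : x = y := by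
  refine evalLam_ext (hp2 := hp2) fun s => ?_
  obtain ⟨K, hK⟩ := exists_even_near (κ := ((c, s) : Weights p)) h5 hc
  have hlim : Tendsto (fun i => (K i : ℤ_[p])) atTop (𝓝 s) := by
    refine tendsto_iff_norm_sub_tendsto_zero.2 (Metric.tendsto_atTop.2 fun ε hε => ?_)
    obtain ⟨a, ha⟩ := exists_pow_neg_lt (p := p) hε
    refine ⟨a, fun i hi => ?_⟩
    rw [Real.dist_eq, sub_zero, abs_of_nonneg (norm_nonneg _)]
    exact ((hK i).2.2.2.2.trans (pow_neg_mono hi)).trans_lt ha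
  refine tendsto_nhds_unique (((continuous_evalLam (hp2 := hp2) x).tendsto s).comp hlim)
    ((((continuous_evalLam (hp2 := hp2) y).tendsto s).comp hlim).congr fun i => ?_)
  exact (h _ (hK i).1 (hK i).2.1 (hK i).2.2.2.1).symm

/-- `∑ θ d` over the divisors of `n` prime to `p`. -/
def starLam (c : ZMod (p - 1)) (n : ℕ) : PowerSeries ℤ_[p] :=
  ∑ d ∈ n.divisors with ¬p ∣ d, thetaLam c d

theorem evalLam_starLam (h5 : 5 ≤ p) {k : ℕ} (hk : 1 ≤ k) (hc : (k : ZMod (p - 1)) = c) (n : ℕ) :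
    evalLam hp2 (k : ℤ_[p]) (starLam c n) = (starSum p k n : ℤ_[p]) := by
  rw [starLam, map_sum, starSum, Nat.cast_sum]
  refine Finset.sum_congr rfl fun d hd => ?_
  rw [evalLam_thetaLam h5 (Finset.mem_filter.1 hd).2 hk hc, Nat.cast_pow]

theorem starLam_mul_prime {n : ℕ} (hn : n ≠ 0) : starLam c (p * n) = starLam c n := by
  classical
  have hp : p.Prime := Fact.out
  refine Finset.sum_congr (Finset.ext fun d => ?_) fun _ _ => rfl
  simp only [Finset.mem_filter, Nat.mem_divisors]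
  constructor
  · rintro ⟨⟨h1, -⟩, h2⟩
    exact ⟨⟨((hp.coprime_iff_not_dvd.2 h2).symm).dvd_of_dvd_mul_left h1, hn⟩, h2⟩
  · rintro ⟨⟨h1, -⟩, h2⟩
    exact ⟨⟨h1.mul_left p, mul_ne_zero hp.ne_zero hn⟩, h2⟩

/-- The relation of the divisor sums with a prime `l ≠ p`. -/
theorem starSum_mul {k l : ℕ} (hl : l.Prime) (hlp : l ≠ p) (n : ℕ) :
    starSum p k (n * l) + (if l ∣ n then l ^ (k - 1) * starSum p k (n / l) else 0) =
      starSum p k n + l ^ (k - 1) * starSum p k n := by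
  classical
  rcases eq_or_ne n 0 with rfl | hn
  · simp [starSum]
  have hp : p.Prime := Fact.out
  obtain ⟨A, hA⟩ : ∃ A : Finset ℕ, A = n.divisors.filter fun d => ¬p ∣ d := ⟨_, rfl⟩
  obtain ⟨B, hB⟩ : ∃ B : Finset ℕ, B = A.image (l * ·) := ⟨_, rfl⟩
  have hinj : Set.InjOn (l * ·) (A : Set ℕ) := fun a _ b _ e =>
    Nat.eq_of_mul_eq_mul_left hl.pos e
  have hsumB : ∑ d ∈ B, d ^ (k - 1) = l ^ (k - 1) * starSum p k n := by
    rw [hB, Finset.sum_image hinj, starSum, ← hA, Finset.mul_sum]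
    exact Finset.sum_congr rfl fun d _ => mul_pow _ _ _
  have hpl : ∀ d, p ∣ l * d ↔ p ∣ d := fun d =>
    ((Nat.coprime_primes hp hl).2 hlp.symm).dvd_mul_left
  have hunion : A ∪ B = (n * l).divisors.filter fun d => ¬p ∣ d := by
    ext d
    simp only [hA, hB, Finset.mem_union, Finset.mem_image, Finset.mem_filter, Nat.mem_divisors]
    constructor
    · rintro (⟨⟨h1, -⟩, h2⟩ | ⟨e, ⟨⟨h1, -⟩, h2⟩, rfl⟩)
      · exact ⟨⟨h1.mul_right l, mul_ne_zero hn hl.ne_zero⟩, h2⟩
      · exact ⟨⟨mul_comm n l ▸ mul_dvd_mul_left l h1, mul_ne_zero hn hl.ne_zero⟩,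
          fun h => h2 ((hpl e).1 h)⟩
    · rintro ⟨⟨h1, -⟩, h2⟩
      by_cases hld : l ∣ d
      · obtain ⟨e, rfl⟩ := hld
        exact Or.inr ⟨e, ⟨⟨Nat.dvd_of_mul_dvd_mul_left hl.pos (mul_comm n l ▸ h1), hn⟩,
          fun h => h2 ((hpl e).2 h)⟩, rfl⟩
      · exact Or.inl ⟨⟨((hl.coprime_iff_not_dvd.2 hld).symm).dvd_of_dvd_mul_right h1, hn⟩, h2⟩
  have hinter : ∑ d ∈ A ∩ B, d ^ (k - 1) =
      if l ∣ n then l ^ (k - 1) * starSum p k (n / l) else 0 := by
    split_ifs with hln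
    · obtain ⟨m, rfl⟩ := hln
      rw [Nat.mul_div_cancel_left _ hl.pos]
      have hm : m ≠ 0 := fun e => hn (by rw [e, mul_zero])
      have e : A ∩ B = (m.divisors.filter fun d => ¬p ∣ d).image (l * ·) := by
        ext d
        simp only [hA, hB, Finset.mem_inter, Finset.mem_image, Finset.mem_filter, Nat.mem_divisors]
        constructor
        · rintro ⟨⟨⟨h1, -⟩, h2⟩, e, -, rfl⟩
          exact ⟨e, ⟨⟨Nat.dvd_of_mul_dvd_mul_left hl.pos h1, hm⟩, fun h => h2 ((hpl e).2 h)⟩, rfl⟩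
        · rintro ⟨e, ⟨⟨h1, -⟩, h2⟩, rfl⟩
          exact ⟨⟨⟨mul_dvd_mul_left l h1, hn⟩, fun h => h2 ((hpl e).1 h)⟩, e,
            ⟨⟨h1.mul_left l, hn⟩, h2⟩, rfl⟩
      rw [e, Finset.sum_image fun a _ b _ h => Nat.eq_of_mul_eq_mul_left hl.pos h, starSum,
        Finset.mul_sum]
      exact Finset.sum_congr rfl fun d _ => mul_pow _ _ _
    · refine Finset.sum_eq_zero fun d hd => absurd ?_ hln
      simp only [hA, hB, Finset.mem_inter, Finset.mem_image, Finset.mem_filter,
        Nat.mem_divisors] at hd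
      obtain ⟨⟨⟨h1, -⟩, -⟩, e, -, rfl⟩ := hd
      exact (dvd_mul_right l e).trans h1
  have h := Finset.sum_union_inter (s₁ := A) (s₂ := B) (f := fun d => d ^ (k - 1))
  rw [hunion, hinter, hsumB] at h
  rw [show starSum p k (n * l) =
    ∑ d ∈ (n * l).divisors.filter (fun d => ¬p ∣ d), d ^ (k - 1) from rfl, h,
    show ∑ d ∈ A, d ^ (k - 1) = starSum p k n by rw [hA]; rfl]

/-- **The Eisenstein family.** -/
theorem exists_eisFam (h5 : 5 ≤ p) (hc0 : c ≠ 0) {j : ℕ}
    (hc : c = ((2 * j : ℕ) : ZMod (p - 1))) :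
    ∃ E : ↥(lamOrd hp2 c), (∀ n, 1 ≤ n → coeff n (E : PowerSeries Λ) = starLam c n) ∧
      ∀ k : ℕ, Even k → 2 ≤ k → (k : ZMod (p - 1)) = c →
        toQps p (spec hp2 (k : ℤ_[p]) (E : PowerSeries Λ)) = toQp p (eisStar p k) := by
  have : NeZero (p - 1) := ⟨by omega⟩
  obtain ⟨k₀, hk₀, hk₀c⟩ : ∃ k : ℕ, 3 ≤ k ∧ (k : ZMod (p - 1)) = c :=
    ⟨c.val + (p - 1), by omega, by
      rw [Nat.cast_add, ZMod.natCast_self, add_zero, ZMod.natCast_zmod_val]⟩
  obtain ⟨G, -, hli, hsp, -⟩ := exists_lambda_basis (hp2 := hp2) h5 hk₀ hk₀c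
  have b := (Module.Basis.span hli).map (LinearEquiv.ofEq _ _ hsp.symm)
  have hy : ∀ i, ∃ y : ℕ →₀ Λ, (y.sum fun n a => a • coefL hp2 c (n + 1)) = b.coord i := fun i =>
    Finsupp.mem_span_range_iff_exists_finsupp.1 (by rw [dual_eq_span h5 hc0]; trivial)
  choose y hy using hy
  obtain ⟨E, hE⟩ : ∃ E : ↥(lamOrd hp2 c),
      E = ∑ i, ((y i).sum fun n a => a * starLam c (n + 1)) • b i := ⟨_, rfl⟩
  have hval : ∀ k : ℕ, Even k → 2 ≤ k → (k : ZMod (p - 1)) = c →
      toQps p (spec hp2 (k : ℤ_[p]) (E : PowerSeries Λ)) = toQp p (eisStar p k) := by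
    intro k hev hk hkc
    have hG := (eisStar_limit (p := p) h5 hev hk).1
    have hhigh : ∀ n, 1 ≤ n → coeff n (toQp p (eisStar p k)) = ((starSum p k n : ℕ) : ℚ_[p]) :=
      fun n hn => by
        rw [coeff_toQp, eisStar, coeff_mk, if_neg (by omega), Rat.cast_natCast]
    have hint : ∀ n, ‖coeff n (toQp p (eisStar p k))‖ ≤ 1 := by
      have h1 : ∀ n ≠ 0, ‖coeff n (toQp p (eisStar p k))‖ ≤ 1 := fun n hn => by
        rw [hhigh n (Nat.pos_of_ne_zero hn), ← Int.cast_natCast]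
        exact Padic.norm_int_le_one _
      intro n
      rcases eq_or_ne n 0 with rfl | hn
      · have := hG.constant_le h5 (m := 0) (fun hn => hc0 (by
          rw [← hkc]
          exact ((hn.1).symm.trans Nat.cast_zero))) zero_le_one h1
        simpa using this
      · exact h1 n hn
    obtain ⟨g, hg⟩ : ∃ g : PowerSeries ℤ_[p], toQps p g = toQp p (eisStar p k) :=
      ⟨PowerSeries.mk fun n => ⟨_, hint n⟩, PowerSeries.ext fun n => by rw [coeff_toQps, coeff_mk]⟩
    have hU : uSer p (toQps p g) = toQps p g := by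
      rw [hg]
      refine PowerSeries.ext fun n => ?_
      rw [coeff_uSer]
      rcases eq_or_ne n 0 with rfl | hn
      · rw [mul_zero]
      · rw [hhigh _ (Nat.pos_of_ne_zero (mul_ne_zero (Fact.out : p.Prime).ne_zero hn)),
          hhigh _ (Nat.pos_of_ne_zero hn), starSum_mul_prime k hn]
    have hform : IsPadicForm (toQps p g) ((c, (k : ℤ_[p])) : Weights p) := by
      rw [hg, ← hkc]
      exact hG
    obtain ⟨F, hF, hFg⟩ := (FA.LambdaForms.Summary.lambda_specialisation (hp2 := hp2) h5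
      (k : ℤ_[p])).1 g hform
      ((FA.OrdinaryProj.mem_ordPart h5).1 (fixed_mem_ordPart h5 hform hU)).2
    rw [← hg, ← hFg]
    congr 1
    have key : ∀ i, evalLam hp2 (k : ℤ_[p]) ((y i).sum fun n a => a * starLam c (n + 1)) =
        evalLam hp2 (k : ℤ_[p]) (b.coord i ⟨F, hF⟩) := fun i => by
      rw [← hy i]
      simp only [Finsupp.sum, LinearMap.sum_apply, LinearMap.smul_apply, coefL_apply, smul_eq_mul,
        map_sum, map_mul]
      refine Finset.sum_congr rfl fun n _ => congrArg _ ?_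
      rw [evalLam_starLam h5 (by omega) hkc, ← coeff_map, hFg]
      refine Subtype.ext ?_
      have e := congrArg (coeff (n + 1)) hg
      rw [coeff_toQps, hhigh _ (Nat.le_add_left 1 n)] at e
      rw [PadicInt.coe_natCast]
      exact e.symm
    conv_rhs => rw [show F = ((⟨F, hF⟩ : ↥(lamOrd hp2 c)) : PowerSeries Λ) from rfl,
      ← b.sum_repr ⟨F, hF⟩]
    rw [hE, Submodule.coe_sum, Submodule.coe_sum, map_sum]
    show _ = PowerSeries.map (evalLam hp2 (k : ℤ_[p])) _
    rw [map_sum]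
    refine Finset.sum_congr rfl fun i _ => ?_
    rw [Submodule.coe_smul, Submodule.coe_smul, PowerSeries.smul_eq_C_mul,
      PowerSeries.smul_eq_C_mul, map_mul, map_mul, spec, map_C, map_C, key]
    rfl
  refine ⟨E, fun n hn => eq_of_even_weights (hp2 := hp2) h5 hc fun k hev hk hkc => ?_, hval⟩
  rw [evalLam_starLam h5 (by omega) hkc, ← coeff_spec]
  refine Subtype.ext ?_
  have e := congrArg (coeff n) (hval k hev (by omega) hkc)
  rw [coeff_toQps, coeff_toQp, eisStar, coeff_mk, if_neg (by omega : n ≠ 0), Rat.cast_natCast] at e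
  rw [PadicInt.coe_natCast]
  exact e

end FA.LambdaEisenstein

end
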