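import Fermat.Agent.LambdaEisenstein.Congruence

/-!
# Irregular primes

The zeta element of the class of `k` is a unit exactly when `p` does not divide the numerator of
`B_k`.
-/

set_option autoImplicit false
set_option linter.unusedSectionVars false

noncomputable section

open PowerSeries Filter Topology

namespace FA.LambdaEisenstein

open FA.PadicForms FA.OrdinaryProj FA.LambdaForms FA.LambdaHecke

variable {p : ℕ} [Fact p.Prime] {hp2 : p ≠ 2} {c : ZMod (p - 1)}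
  {h5 : 5 ≤ p} {hc0 : c ≠ 0} {hev : Even c}

local notation "Λ" => PowerSeries ℤ_[p]

/-- The value of the zeta element. -/
theorem evalLam_zetaLam {k : ℕ} (hk2 : Even k) (hk : 2 ≤ k) (hkc : (k : ZMod (p - 1)) = c) :
    ((evalLam hp2 (k : ℤ_[p]) (zetaLam hp2 h5 hc0 hev) : ℤ_[p]) : ℚ_[p]) =
      (((1 - (p : ℚ) ^ (k - 1)) * -(bernoulli k / (2 * k)) : ℚ) : ℚ_[p]) := by
  have h := congrArg (coeff 0) (spec_eisFam (hp2 := hp2) (h5 := h5) (hc0 := hc0) (hev := hev)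
    hk2 hk hkc)
  rw [coeff_toQps, coeff_spec, coeff_toQp, eisStar, coeff_mk, if_pos rfl] at h
  exact h

theorem isUnit_iff_evalLam (s : ℤ_[p]) (θ : PowerSeries ℤ_[p]) :
    IsUnit θ ↔ IsUnit (evalLam hp2 s θ) := by
  refine ⟨fun h => h.map _, fun h => ?_⟩
  rw [PowerSeries.isUnit_iff_constantCoeff]
  by_contra hn
  have h1 : PadicInt.toZMod (evalLam hp2 s θ) = 0 := by
    rw [toZMod_evalLam, FA.PadicIwasawa.toZMod_eq_zero_iff_norm.2 (PadicInt.not_isUnit_iff.1 hn)]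
  exact PadicInt.not_isUnit_iff.2 (FA.PadicIwasawa.toZMod_eq_zero_iff_norm.1 h1) h

/-- **Irregularity.** -/
theorem not_isUnit_zetaLam_iff {k : ℕ} (hk2 : Even k) (hk : 2 ≤ k) (hkp : k ≤ p - 3)
    (hkc : (k : ZMod (p - 1)) = c) :
    ¬IsUnit (zetaLam hp2 h5 hc0 hev) ↔ (p : ℤ) ∣ (bernoulli k).num := by
  have hp : p.Prime := Fact.out
  have hu : ∀ m : ℕ, ¬p ∣ m → ‖((m : ℕ) : ℚ_[p])‖ = 1 := fun m hm => by
    refine le_antisymm (by exact_mod_cast Padic.norm_int_le_one (p := p) (m : ℤ))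
      (not_lt.1 fun hlt => hm ?_)
    rw [← Int.cast_natCast, Padic.norm_intCast_lt_one_iff, Int.natCast_dvd_natCast] at hlt
    exact hlt
  have h1 : ‖(1 : ℚ_[p]) - (p : ℚ_[p]) ^ (k - 1)‖ = 1 := by
    have hlt : ‖(p : ℚ_[p]) ^ (k - 1)‖ < 1 := by
      rw [norm_pow]
      exact pow_lt_one₀ (norm_nonneg _) Padic.norm_p_lt_one (by omega)
    rw [sub_eq_add_neg, IsUltrametricDist.norm_add_eq_max_of_norm_ne_norm (by rw [norm_neg, norm_one]; exact hlt.ne'),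
      norm_neg, norm_one, max_eq_left hlt.le]
  have h2k : ‖((2 * k : ℕ) : ℚ_[p])‖ = 1 := hu _ fun hd => by
    rcases hp.dvd_mul.1 hd with h | h
    · have := Nat.le_of_dvd two_pos h
      omega
    · have := Nat.le_of_dvd (by omega) h
      omega
  have hn : ‖((evalLam hp2 (k : ℤ_[p]) (zetaLam hp2 h5 hc0 hev) : ℤ_[p]) : ℚ_[p])‖ =
      ‖((bernoulli k : ℚ) : ℚ_[p])‖ := by
    rw [evalLam_zetaLam hk2 hk hkc]
    push_cast at h2k ⊢
    rw [norm_mul, h1, one_mul, norm_neg, norm_div, h2k, div_one]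
  rw [isUnit_iff_evalLam (hp2 := hp2) (k : ℤ_[p]), PadicInt.not_isUnit_iff, PadicInt.norm_def, hn]
  have hle : ‖((bernoulli k : ℚ) : ℚ_[p])‖ ≤ 1 := hn ▸ PadicInt.norm_le_one _
  have hq : ((bernoulli k : ℚ) : ℚ_[p]) * (((bernoulli k).den : ℕ) : ℚ_[p]) =
      (((bernoulli k).num : ℤ) : ℚ_[p]) := by
    exact_mod_cast congrArg (fun x : ℚ => (x : ℚ_[p])) (Rat.mul_den_eq_num (bernoulli k))
  constructor
  · intro hlt
    rw [← Padic.norm_intCast_lt_one_iff, ← hq, norm_mul]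
    exact (mul_le_of_le_one_right (norm_nonneg _)
      (by exact_mod_cast Padic.norm_int_le_one (p := p) ((bernoulli k).den : ℤ))).trans_lt hlt
  · intro hd
    have hden : ¬p ∣ (bernoulli k).den := fun h =>
      hp.one_lt.ne' (Nat.eq_one_of_dvd_coprimes (bernoulli k).reduced
        (Int.natCast_dvd.1 hd) h)
    rw [← Padic.norm_intCast_lt_one_iff, ← hq, norm_mul, hu _ hden, mul_one] at hd
    exact hd

/-- The values of a system of a weight are finite over `ℤ_p`. -/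
theorem quotient_finite_of {A : Type*} [CommRing A] [Algebra (PowerSeries ℤ_[p]) A]
    [Module.Finite (PowerSeries ℤ_[p]) A] {s : ℤ_[p]} (P : Ideal A)
    (hP : P.comap (algebraMap Λ A) = RingHom.ker (evalLam hp2 s)) :
    ∃ ρ : ℤ_[p] →+* A ⧸ P, Function.Injective ρ ∧ ρ.Finite ∧
      ∀ a, Ideal.Quotient.mk P (algebraMap Λ A a) = ρ (evalLam hp2 s a) := by
  obtain ⟨ρ, hρ⟩ : ∃ ρ, ρ = ((Ideal.Quotient.mk P).comp
      (algebraMap Λ A)).comp (C : ℤ_[p] →+* Λ) := ⟨_, rfl⟩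
  have e : ∀ a, Ideal.Quotient.mk P (algebraMap Λ A a) = ρ (evalLam hp2 s a) := fun a => by
    rw [hρ, RingHom.comp_apply, RingHom.comp_apply, Ideal.Quotient.eq, ← map_sub,
      ← Ideal.mem_comap, hP, RingHom.mem_ker, map_sub, evalLam_C, sub_self]
  refine ⟨ρ, (injective_iff_map_eq_zero _).2 fun a ha => ?_, ?_, e⟩
  · rw [hρ, RingHom.comp_apply, RingHom.comp_apply, Ideal.Quotient.eq_zero_iff_mem,
      ← Ideal.mem_comap, hP, RingHom.mem_ker, evalLam_C] at ha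
    exact ha
  · refine RingHom.Finite.of_comp_finite (f := evalLam hp2 s) ?_
    rw [show ρ.comp (evalLam hp2 s) = (Ideal.Quotient.mk P).comp (algebraMap Λ A) from
      RingHom.ext fun a => (e a).symm]
    exact (RingHom.Finite.of_surjective _ Ideal.Quotient.mk_surjective).comp
      (RingHom.finite_algebraMap.2 inferInstance)

/-- The congruence in an algebra that is finite over `Λ`. -/
theorem congruent_of {A H : Type*} [CommRing A] [Algebra (PowerSeries ℤ_[p]) A]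
    [Module.Finite (PowerSeries ℤ_[p]) A] {s : ℤ_[p]} (P m : Ideal A)
    (hP : P.comap (algebraMap Λ A) = RingHom.ker (evalLam hp2 s)) (φ : H → A)
    (ψ : H → PowerSeries ℤ_[p]) (hm : ∀ h, φ h - algebraMap Λ A (ψ h) ∈ m) :
    ∃ ρ : ℤ_[p] →+* A ⧸ P, Function.Injective ρ ∧ ρ.Finite ∧
      (∀ a, Ideal.Quotient.mk P (algebraMap Λ A a) = ρ (evalLam hp2 s a)) ∧
      ∀ h, Ideal.Quotient.mk P (φ h) - ρ (evalLam hp2 s (ψ h)) ∈
        m.map (Ideal.Quotient.mk P) := by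
  obtain ⟨ρ, h1, h2, h3⟩ := quotient_finite_of P hP
  refine ⟨ρ, h1, h2, h3, fun h => ?_⟩
  rw [← h3, ← map_sub]
  exact Ideal.mem_map_of_mem _ (hm h)

/-- **The systems congruent to the Eisenstein one**, in every weight, on families. -/
theorem exists_congruent_system (m : Ideal ↥(cuspAlg hp2 h5 hc0 hev)) [m.IsMaximal]
    (hm : eisIdeal hp2 h5 hc0 hev ≤ m) (s : ℤ_[p]) :
    ∃ P : Ideal ↥(cuspAlg hp2 h5 hc0 hev), P.IsPrime ∧ P ≤ m ∧
      (∃ ρ : ℤ_[p] →+* ↥(cuspAlg hp2 h5 hc0 hev) ⧸ P, Function.Injective ρ ∧ ρ.Finite ∧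
        (∀ a, Ideal.Quotient.mk P (algebraMap Λ ↥(cuspAlg hp2 h5 hc0 hev) a) =
          ρ (evalLam hp2 s a)) ∧
        ∀ h, (Ideal.Quotient.mk P) (cuspMap hp2 h5 hc0 hev h) -
          ρ (evalLam hp2 s (eisHom hp2 h5 hc0 hev h)) ∈ m.map (Ideal.Quotient.mk P)) ∧
      ∃ P₀ : Ideal ↥(cuspAlg hp2 h5 hc0 hev), P₀.IsPrime ∧ P₀ ≤ P ∧
        P₀.comap (algebraMap Λ ↥(cuspAlg hp2 h5 hc0 hev)) = ⊥ :=
  (cusp_lift m s).elim fun P hP =>
    hP.2.2.2.elim fun P₀ hP₀ =>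
      ⟨P, hP.2.1, hP.1,
        @congruent_of p _ hp2 ↥(cuspAlg hp2 h5 hc0 hev) ↥(heckeAlg hp2 c) _ _
          (cuspAlg_free (hp2 := hp2) (h5 := h5) (hc0 := hc0) (hev := hev)).2.1 s P m hP.2.2.1
          (cuspMap hp2 h5 hc0 hev) (eisHom hp2 h5 hc0 hev) fun h => hm (sub_mem_eisIdeal h),
        P₀, hP₀.2.1, hP₀.1, hP₀.2.2⟩

end FA.LambdaEisenstein

end
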